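/-
S56lib / GW / Count (helper8).  **The Greenberg–Wiles count, abstract linear-algebra form.**
Given the tail of the Poitou–Tate sequence
  `H¹ --loc₁--> P¹ --a--> X ≃ (D¹)^∨ --δ--> H² --loc₂--> P² --b--> (D⁰)^∨ → 0`
(exact at `P¹, X, H², P²`, `b` onto) and the compatibility `α (a y) x = π y (loc₁' x)` of the global
duality `α` with the (sum of) local pairing(s) `π : P¹ × P¹' → k`, then for EVERY subspace `L ≤ P¹`
(local conditions), with `L^⊥ ≤ P¹'` its orthogonal, `Sel = loc₁⁻¹ L`, `Sel' = loc₁'⁻¹ L^⊥`:
  `dim Sel + dim H² + dim D⁰ + dim P¹ = dim Sel' + dim H¹ + dim P² + dim L`.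
(No perfectness of `π` is needed.)  Cardinality forms and the product/Euler-characteristic layer follow.
-/
import Mathlib

set_option autoImplicit false

noncomputable section

namespace Fermat.Agent.S56lib.GW

open Module

section Basic

variable {k : Type*} [Field k] {V W : Type*} [AddCommGroup V] [Module k V] [AddCommGroup W]
  [Module k W]

/-- `dim (f '' L) + dim (L ⊓ ker f) = dim L` -/
theorem finrank_map_add_finrank_inf_ker [FiniteDimensional k V] (f : V →ₗ[k] W)
    (L : Submodule k V) :
    finrank k (L.map f) + finrank k ↥(L ⊓ LinearMap.ker f) = finrank k L := by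
  have h := LinearMap.finrank_range_add_finrank_ker (f.domRestrict L)
  have h1 : LinearMap.range (f.domRestrict L) = L.map f := by
    ext w
    simp only [LinearMap.mem_range, Submodule.mem_map, LinearMap.domRestrict_apply, Subtype.exists,
      exists_prop]
  have h2 : finrank k ↥(LinearMap.ker (f.domRestrict L)) = finrank k ↥(L ⊓ LinearMap.ker f) := by
    have e : ↥(LinearMap.ker (f.domRestrict L)) ≃ₗ[k] ↥(L ⊓ LinearMap.ker f) :=
      { toFun := fun x => ⟨x.1.1, x.1.2, by
            have := x.2
            rw [LinearMap.mem_ker, LinearMap.domRestrict_apply] at this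
            exact this⟩
        invFun := fun x => ⟨⟨x.1, x.2.1⟩, by
            rw [LinearMap.mem_ker, LinearMap.domRestrict_apply]
            exact x.2.2⟩
        left_inv := fun x => rfl
        right_inv := fun x => rfl
        map_add' := fun x y => rfl
        map_smul' := fun c x => rfl }
    exact e.finrank_eq
  rw [h1, h2] at h
  exact h

/-- `dim f⁻¹(L) + dim range f = dim V + dim (L ⊓ range f)` -/
theorem finrank_comap_add_finrank_range [FiniteDimensional k V] [FiniteDimensional k W]
    (f : V →ₗ[k] W) (L : Submodule k W) :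
    finrank k (L.comap f) + finrank k (LinearMap.range f)
      = finrank k V + finrank k ↥(L ⊓ LinearMap.range f) := by
  have h1 := finrank_map_add_finrank_inf_ker f (L.comap f)
  have h2 : (L.comap f).map f = L ⊓ LinearMap.range f := Submodule.map_comap_eq f L |>.trans (inf_comm _ _)
  have h3 : L.comap f ⊓ LinearMap.ker f = LinearMap.ker f := by
    apply inf_eq_right.2
    intro x hx
    rw [Submodule.mem_comap, LinearMap.mem_ker.1 hx]
    exact L.zero_mem
  have h4 := LinearMap.finrank_range_add_finrank_ker f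
  rw [h2, h3] at h1
  omega

end Basic

section Count

variable {k : Type*} [Field k]
  {H1 H2 P1 P1' P2 D1 D0 X : Type*}
  [AddCommGroup H1] [Module k H1] [AddCommGroup H2] [Module k H2]
  [AddCommGroup P1] [Module k P1] [AddCommGroup P1'] [Module k P1']
  [AddCommGroup P2] [Module k P2] [AddCommGroup D1] [Module k D1]
  [AddCommGroup D0] [Module k D0] [AddCommGroup X] [Module k X]

/-- the orthogonal of `L ≤ P¹` in `P¹'` for the pairing `π` -/
def perp (π : P1 →ₗ[k] P1' →ₗ[k] k) (L : Submodule k P1) : Submodule k P1' where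
  carrier := {x' | ∀ y ∈ L, π y x' = 0}
  add_mem' := fun {x y} hx hy z hz => by rw [map_add, hx z hz, hy z hz, add_zero]
  zero_mem' := fun z _ => map_zero _
  smul_mem' := fun c x hx z hz => by rw [map_smul, hx z hz, smul_zero]

theorem mem_perp {π : P1 →ₗ[k] P1' →ₗ[k] k} {L : Submodule k P1} {x' : P1'} :
    x' ∈ perp π L ↔ ∀ y ∈ L, π y x' = 0 := Iff.rfl

/-- the tail of the nine-term sequence, with the compatibility of global and local duality -/
structure Tail (loc1 : H1 →ₗ[k] P1) (loc1' : D1 →ₗ[k] P1') (a : P1 →ₗ[k] X)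
    (α : X →ₗ[k] Module.Dual k D1) (δ : X →ₗ[k] H2) (loc2 : H2 →ₗ[k] P2)
    (b : P2 →ₗ[k] Module.Dual k D0) (π : P1 →ₗ[k] P1' →ₗ[k] k) : Prop where
  exact_P1 : LinearMap.range loc1 = LinearMap.ker a
  exact_X : LinearMap.range a = LinearMap.ker δ
  exact_H2 : LinearMap.range δ = LinearMap.ker loc2
  exact_P2 : LinearMap.range loc2 = LinearMap.ker b
  surj_b : Function.Surjective b
  bij_α : Function.Bijective α
  compat : ∀ y x, α (a y) x = π y (loc1' x)

variable {loc1 : H1 →ₗ[k] P1} {loc1' : D1 →ₗ[k] P1'} {a : P1 →ₗ[k] X}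
  {α : X →ₗ[k] Module.Dual k D1} {δ : X →ₗ[k] H2} {loc2 : H2 →ₗ[k] P2}
  {b : P2 →ₗ[k] Module.Dual k D0} {π : P1 →ₗ[k] P1' →ₗ[k] k}

/-- the dual Selmer group is the coannihilator of `α (a L)` -/
theorem Tail.comap_perp_eq (T : Tail loc1 loc1' a α δ loc2 b π) (L : Submodule k P1) :
    (perp π L).comap loc1' = (L.map (α ∘ₗ a)).dualCoannihilator := by
  ext x
  rw [Submodule.mem_comap, mem_perp, Submodule.mem_dualCoannihilator]
  constructor
  · intro h f hf
    obtain ⟨y, hy, rfl⟩ := hf
    rw [LinearMap.comp_apply, T.compat]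
    exact h y hy
  · intro h y hy
    rw [← T.compat]
    exact h _ ⟨y, hy, rfl⟩

/-- **Greenberg–Wiles, dimension form** -/
theorem Tail.finrank_eq [FiniteDimensional k H1] [FiniteDimensional k H2] [FiniteDimensional k P1]
    [FiniteDimensional k P2] [FiniteDimensional k D1] [FiniteDimensional k D0]
    [FiniteDimensional k X] (T : Tail loc1 loc1' a α δ loc2 b π) (L : Submodule k P1) :
    finrank k (L.comap loc1) + finrank k H2 + finrank k D0 + finrank k P1
      = finrank k ((perp π L).comap loc1') + finrank k H1 + finrank k P2 + finrank k L := by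
  -- Selmer
  have e1 := finrank_comap_add_finrank_range loc1 L
  rw [T.exact_P1] at e1
  -- dual Selmer
  have e2 := Subspace.finrank_add_finrank_dualCoannihilator_eq (L.map (α ∘ₗ a))
  rw [← T.comap_perp_eq L] at e2
  have e3 := finrank_map_add_finrank_inf_ker (α ∘ₗ a) L
  have hker : LinearMap.ker (α ∘ₗ a) = LinearMap.ker a := by
    rw [LinearMap.ker_comp, LinearMap.ker_eq_bot.2 T.bij_α.1, Submodule.comap_bot]
  rw [hker] at e3
  -- the chain
  have c1 := LinearMap.finrank_range_add_finrank_ker a
  have c2 := LinearMap.finrank_range_add_finrank_ker δ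
  have c3 := LinearMap.finrank_range_add_finrank_ker loc2
  have c4 := LinearMap.finrank_range_add_finrank_ker b
  rw [T.exact_X] at c1
  rw [T.exact_H2] at c2
  rw [T.exact_P2] at c3
  have c5 : finrank k (LinearMap.range b) = finrank k D0 := by
    rw [LinearMap.range_eq_top.2 T.surj_b, finrank_top, Subspace.dual_finrank_eq]
  have c6 : finrank k X = finrank k D1 := by
    rw [(LinearEquiv.ofBijective α T.bij_α).finrank_eq, Subspace.dual_finrank_eq]
  omega

end Count

end Fermat.Agent.S56lib.GW
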