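/-
S56lib / GW / Card (helper8).  **The Greenberg–Wiles formula in cardinality form**, on top of
`GW/Count`: for a finite field `k`, local factors `P¹ = ∏_v P¹_v`, `P² = ∏_v P²_v`, local conditions
`L = ∏_v L_v`, local pairings `π = Σ_v π_v`, and the global/local Euler characteristic formulas as
numerical hypotheses,
  `|Sel_L| · |D⁰| · |H⁰(ℝ)| · ∏_v |H⁰_v| = |Sel_{L^⊥}| · |H⁰| · ∏_v |L_v|`.
-/
import Mathlib
import Fermat.Agent.S56lib.GW.Count

set_option autoImplicit false

noncomputable section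

namespace Fermat.Agent.S56lib.GW

open Module

section Card

variable {k : Type*} [Field k]
  {H1 H2 P1 P1' P2 D1 D0 X : Type*}
  [AddCommGroup H1] [Module k H1] [AddCommGroup H2] [Module k H2]
  [AddCommGroup P1] [Module k P1] [AddCommGroup P1'] [Module k P1']
  [AddCommGroup P2] [Module k P2] [AddCommGroup D1] [Module k D1]
  [AddCommGroup D0] [Module k D0] [AddCommGroup X] [Module k X]
  {loc1 : H1 →ₗ[k] P1} {loc1' : D1 →ₗ[k] P1'} {a : P1 →ₗ[k] X}
  {α : X →ₗ[k] Module.Dual k D1} {δ : X →ₗ[k] H2} {loc2 : H2 →ₗ[k] P2}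
  {b : P2 →ₗ[k] Module.Dual k D0} {π : P1 →ₗ[k] P1' →ₗ[k] k}

/-- **Greenberg–Wiles, cardinality form (before Euler characteristics)** -/
theorem Tail.card_eq [FiniteDimensional k H1] [FiniteDimensional k H2] [FiniteDimensional k P1]
    [FiniteDimensional k P2] [FiniteDimensional k D1] [FiniteDimensional k D0]
    [FiniteDimensional k X] (T : Tail loc1 loc1' a α δ loc2 b π) (L : Submodule k P1) :
    Nat.card (L.comap loc1) * Nat.card H2 * Nat.card D0 * Nat.card P1
      = Nat.card ((perp π L).comap loc1') * Nat.card H1 * Nat.card P2 * Nat.card L := by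
  have h := T.finrank_eq L
  rw [Module.natCard_eq_pow_finrank (K := k) (V := ↥(L.comap loc1)),
    Module.natCard_eq_pow_finrank (K := k) (V := H2),
    Module.natCard_eq_pow_finrank (K := k) (V := D0),
    Module.natCard_eq_pow_finrank (K := k) (V := P1),
    Module.natCard_eq_pow_finrank (K := k) (V := ↥((perp π L).comap loc1')),
    Module.natCard_eq_pow_finrank (K := k) (V := H1),
    Module.natCard_eq_pow_finrank (K := k) (V := P2),
    Module.natCard_eq_pow_finrank (K := k) (V := ↥L),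
    ← pow_add, ← pow_add, ← pow_add, ← pow_add, ← pow_add, ← pow_add, h]

end Card

section Pi

variable {k : Type*} [Field k] {ι : Type*} [Fintype ι]
  {P1c P1c' : ι → Type*} [∀ v, AddCommGroup (P1c v)] [∀ v, Module k (P1c v)]
  [∀ v, AddCommGroup (P1c' v)] [∀ v, Module k (P1c' v)]

/-- the sum of the local pairings -/
def sumPairing (πc : ∀ v, P1c v →ₗ[k] P1c' v →ₗ[k] k) :
    (∀ v, P1c v) →ₗ[k] (∀ v, P1c' v) →ₗ[k] k :=
  ∑ v, ((πc v).compl₁₂ (LinearMap.proj v) (LinearMap.proj v))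

theorem sumPairing_apply (πc : ∀ v, P1c v →ₗ[k] P1c' v →ₗ[k] k) (y : ∀ v, P1c v)
    (x' : ∀ v, P1c' v) : sumPairing πc y x' = ∑ v, πc v (y v) (x' v) := by
  simp [sumPairing, LinearMap.sum_apply, LinearMap.compl₁₂_apply]

/-- the orthogonal of a product of local conditions is the product of the orthogonals -/
theorem perp_pi (πc : ∀ v, P1c v →ₗ[k] P1c' v →ₗ[k] k) (Lc : ∀ v, Submodule k (P1c v)) :
    perp (sumPairing πc) (Submodule.pi Set.univ Lc)
      = Submodule.pi Set.univ (fun v => perp (πc v) (Lc v)) := by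
  classical
  ext x'
  rw [mem_perp, Submodule.mem_pi]
  constructor
  · intro h v _ yv hyv
    have h1 := h (Pi.single v yv) (by
      rw [Submodule.mem_pi]
      intro w _
      by_cases hw : w = v
      · subst hw
        rw [Pi.single_eq_same]
        exact hyv
      · rw [Pi.single_eq_of_ne hw]
        exact (Lc w).zero_mem)
    rw [sumPairing_apply, Finset.sum_eq_single v] at h1
    · rwa [Pi.single_eq_same] at h1
    · intro w _ hw
      rw [Pi.single_eq_of_ne hw, map_zero, LinearMap.zero_apply]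
    · intro hv
      exact absurd (Finset.mem_univ v) hv
  · intro h y hy
    rw [sumPairing_apply]
    apply Finset.sum_eq_zero
    intro v _
    rw [Submodule.mem_pi] at hy
    exact h v (Set.mem_univ v) (y v) (hy v (Set.mem_univ v))

/-- the cardinality of a product of local conditions -/
theorem card_pi_submodule (Lc : ∀ v, Submodule k (P1c v)) :
    Nat.card (Submodule.pi Set.univ Lc) = ∏ v, Nat.card (Lc v) := by
  rw [← Nat.card_pi]
  apply Nat.card_congr
  exact
    { toFun := fun y v => ⟨y.1 v, (Submodule.mem_pi.1 y.2) v (Set.mem_univ v)⟩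
      invFun := fun y => ⟨fun v => (y v).1, Submodule.mem_pi.2 (fun v _ => (y v).2)⟩
      left_inv := fun y => rfl
      right_inv := fun y => rfl }

end Pi

section Euler

/-- **the numerical step**: Greenberg–Wiles from the count and the Euler characteristic formulas.
`S = |Sel_L|`, `S' = |Sel_{L^⊥}|`, `h0 = |H⁰(G_S,M)|`, `h1, h2`, `d0 = |H⁰(G_S,M')|`,
`cR = |H⁰(G_ℝ,M)|`, `cM = |M|`, local: `p1 v = |H¹(G_v,M)|`, `p2 v`, `c0 v = |H⁰(G_v,M)|`, `l v = |L_v|`;
`vp` the place above `p`. -/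
theorem gw_numeric {ι : Type*} [Fintype ι] [DecidableEq ι] (vp : ι)
    (S S' h0 h1 h2 d0 cR cM : ℕ) (p1 p2 c0 l : ι → ℕ)
    (hh2 : 0 < h2) (hcM : 0 < cM) (hp2 : ∀ v, 0 < p2 v)
    (hcount : S * h2 * d0 * ∏ v, p1 v = S' * h1 * (∏ v, p2 v) * ∏ v, l v)
    (hglob : h1 * cR = h0 * h2 * cM)
    (hloc : ∀ v, p1 v = c0 v * p2 v * (if v = vp then cM else 1)) :
    S * d0 * cR * ∏ v, c0 v = S' * h0 * ∏ v, l v := by
  have hP1 : ∏ v, p1 v = (∏ v, c0 v) * (∏ v, p2 v) * cM := by
    rw [Finset.prod_congr rfl (fun v _ => hloc v), Finset.prod_mul_distrib,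
      Finset.prod_mul_distrib, Finset.prod_ite_eq' Finset.univ vp (fun _ => cM)]
    simp
  have hpos : 0 < h2 * (∏ v, p2 v) * cM :=
    Nat.mul_pos (Nat.mul_pos hh2 (Finset.prod_pos (fun v _ => hp2 v))) hcM
  apply Nat.eq_of_mul_eq_mul_right hpos
  calc S * d0 * cR * (∏ v, c0 v) * (h2 * (∏ v, p2 v) * cM)
      = (S * h2 * d0 * ((∏ v, c0 v) * (∏ v, p2 v) * cM)) * cR := by ring
    _ = (S * h2 * d0 * ∏ v, p1 v) * cR := by rw [hP1]
    _ = (S' * h1 * (∏ v, p2 v) * ∏ v, l v) * cR := by rw [hcount]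
    _ = S' * (h1 * cR) * (∏ v, p2 v) * ∏ v, l v := by ring
    _ = S' * (h0 * h2 * cM) * (∏ v, p2 v) * ∏ v, l v := by rw [hglob]
    _ = S' * h0 * (∏ v, l v) * (h2 * (∏ v, p2 v) * cM) := by ring

end Euler

end Fermat.Agent.S56lib.GW
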